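import Fermat.Agent.StickelbergerIndex.Lattice
import Mathlib.Analysis.Complex.Polynomial.Basic
import Mathlib.NumberTheory.DirichletCharacter.Orthogonality
import Mathlib.RingTheory.RootsOfUnity.AlgebraicallyClosed

/-!
# The odd characters diagonalise the matrix

For odd `m > 1`, `|det (2 val(h/c) - m)| = ∏_{χ odd} |∑ χ(a) val(a)|`.
-/

set_option autoImplicit false

noncomputable section

open Finset Matrix
open scoped Classical

namespace FA.StickelbergerIndex

variable {m : ℕ} [NeZero m]

theorem neg_one_ne_one_zmod (h1 : 1 < m) (hm : Odd m) : (-1 : ZMod m) ≠ 1 := by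
  obtain ⟨k, hk⟩ := hm
  haveI : Fact (2 < m) := ⟨by omega⟩
  exact ZMod.neg_one_ne_one

/-- As many odd characters as half units. -/
theorem card_odd_eq_half (h1 : 1 < m) (hm : Odd m) :
    Fintype.card {χ : DirichletCharacter ℂ m // χ.Odd} = Fintype.card (HalfUnit m) := by
  have hphi : m.totient = 2 * Fintype.card (HalfUnit m) := by
    have h := sum_units_half h1 hm fun _ => (1 : ℕ)
    simp only [Finset.sum_const, Finset.card_univ, smul_eq_mul, mul_one] at h
    rw [← ZMod.card_units_eq_totient, h]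
    ring
  have hall : Fintype.card (DirichletCharacter ℂ m) = m.totient := by
    rw [← Nat.card_eq_fintype_card, DirichletCharacter.card_eq_totient_of_hasEnoughRootsOfUnity]
  have ho : ∀ χ ∈ univ.filter (fun χ : DirichletCharacter ℂ m => χ.Odd), χ (-1) = (-1 : ℂ) :=
    fun χ hχ => (mem_filter.mp hχ).2
  have he' : ∀ χ ∈ univ.filter (fun χ : DirichletCharacter ℂ m => ¬ χ.Odd), χ (-1) = (1 : ℂ) :=
    fun χ hχ => (DirichletCharacter.even_or_odd χ).resolve_right (mem_filter.mp hχ).2
  have hsum := DirichletCharacter.sum_characters_eq_zero ℂ (neg_one_ne_one_zmod h1 hm)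
  rw [← Finset.sum_filter_add_sum_filter_not univ (fun χ : DirichletCharacter ℂ m => χ.Odd),
    Finset.sum_congr rfl ho, Finset.sum_congr rfl he', Finset.sum_const, Finset.sum_const,
    nsmul_eq_mul, nsmul_eq_mul, mul_neg, mul_one, mul_one] at hsum
  have he := Finset.card_filter_add_card_filter_not (s := (univ : Finset (DirichletCharacter ℂ m)))
    (fun χ => χ.Odd)
  rw [Finset.card_univ, hall, hphi] at he
  have heq : (univ.filter fun χ : DirichletCharacter ℂ m => χ.Odd).card =
      (univ.filter fun χ : DirichletCharacter ℂ m => ¬ χ.Odd).card := by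
    exact_mod_cast (show _ = _ from neg_add_eq_zero.mp hsum)
  rw [Fintype.card_subtype]
  omega

/-- An even function on units summed over the half system. -/
theorem sum_units_even (h1 : 1 < m) (hm : Odd m) {F : (ZMod m)ˣ → ℂ} (hF : ∀ a, F (-a) = F a) :
    ∑ a, F a = 2 * ∑ h : HalfUnit m, F h.1 := by
  rw [sum_units_half h1 hm, Finset.mul_sum]
  exact Finset.sum_congr rfl fun h _ => by rw [hF, two_mul]

/-- A sum against a character is a sum over units. -/
theorem sum_char_units (χ : DirichletCharacter ℂ m) (F : ZMod m → ℂ) :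
    ∑ a : (ZMod m)ˣ, χ a * F a = ∑ a : ZMod m, χ a * F a := by
  rw [← Finset.sum_filter_of_ne (p := fun a : ZMod m => IsUnit a)
    fun a _ ha => by_contra fun hu => ha (by rw [χ.map_nonunit hu, zero_mul])]
  exact Finset.sum_bij (fun a _ => (a : ZMod m)) (fun a _ => mem_filter.mpr ⟨mem_univ _, a.isUnit⟩)
    (fun a _ b _ e => Units.ext e)
    (fun a ha => ⟨(mem_filter.mp ha).2.unit, mem_univ _, IsUnit.unit_spec _⟩) fun _ _ => rfl

theorem sum_units_char_eq_zero {χ : DirichletCharacter ℂ m} (hχ : χ ≠ 1) :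
    ∑ a : (ZMod m)ˣ, χ a = 0 := by
  have h := sum_char_units χ fun _ => 1
  simp only [mul_one] at h
  rw [h]
  exact MulChar.sum_eq_zero_of_ne_one hχ

/-- **The determinant**. -/
theorem abs_det_halfMatrix (h1 : 1 < m) (hm : Odd m) :
    ((halfMatrix m).det.natAbs : ℝ) =
      ∏ χ : {χ : DirichletCharacter ℂ m // χ.Odd}, ‖∑ a : ZMod m, χ.1 a * (a.val : ℂ)‖ := by
  obtain ⟨e⟩ := Fintype.truncEquivOfCardEq (card_odd_eq_half h1 hm).symm |>.nonempty
  set X : Matrix (HalfUnit m) (HalfUnit m) ℂ := Matrix.of fun i j => (e j).1 i.1 with hX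
  set Y : Matrix (HalfUnit m) (HalfUnit m) ℂ := Matrix.of fun j i => (e j).1 (i.1⁻¹ : (ZMod m)ˣ)
    with hY
  set S : HalfUnit m → ℂ := fun j => ∑ a : ZMod m, (e j).1 a * (a.val : ℂ) with hS
  have hne1 : ∀ j, (e j).1 ≠ 1 := fun j h' => by
    have h2 : (e j).1 (-1) = -1 := (e j).2
    rw [h', MulChar.one_apply isUnit_one.neg] at h2
    norm_num at h2
  have horth : Y * X = (Fintype.card (HalfUnit m) : ℂ) • 1 := by
    ext i j
    simp only [hX, hY, mul_apply, of_apply, Matrix.smul_apply, one_apply, smul_eq_mul]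
    have hstep : ∀ a : (ZMod m)ˣ, (e i).1 ((a⁻¹ : (ZMod m)ˣ) : ZMod m) * (e j).1 a =
        ((e i).1⁻¹ * (e j).1) a := fun a => by
      rw [MulChar.mul_apply, MulChar.inv_apply, Ring.inverse_unit]
    simp only [hstep]
    split_ifs with hij
    · subst hij
      simp [inv_mul_cancel, MulChar.one_apply (Units.isUnit _)]
    · have hne : (e i).1⁻¹ * (e j).1 ≠ 1 := fun h' =>
        hij (e.injective (Subtype.ext (inv_mul_eq_one.mp h')))
      have hev : ∀ a : (ZMod m)ˣ, ((e i).1⁻¹ * (e j).1) ((-a : (ZMod m)ˣ) : ZMod m) =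
          ((e i).1⁻¹ * (e j).1) a := fun a => by
        rw [Units.val_neg, ← neg_one_mul (a : ZMod m), map_mul, MulChar.mul_apply (a := -1),
          MulChar.inv_apply_eq_inv, Ring.inverse_eq_inv, show (e i).1 (-1) = -1 from (e i).2,
          show (e j).1 (-1) = -1 from (e j).2, inv_neg_one]
        ring
      have h := sum_units_even h1 hm (F := fun a => ((e i).1⁻¹ * (e j).1) a) hev
      rw [sum_units_char_eq_zero hne] at h
      rw [mul_zero]
      exact (mul_eq_zero.mp h.symm).resolve_left two_ne_zero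
  have hXne : X.det ≠ 0 := fun h0 => by
    have h := congrArg Matrix.det horth
    rw [det_mul, h0, mul_zero, det_smul, det_one, mul_one] at h
    haveI : Nonempty (HalfUnit m) := ⟨halfOne h1 hm⟩
    exact pow_ne_zero _ (Nat.cast_ne_zero.mpr Fintype.card_ne_zero) h.symm
  have hGX : (halfMatrix m).map (Int.cast : ℤ → ℂ) * X = X * diagonal S := by
    ext c j
    rw [mul_diagonal, mul_apply]
    simp only [hX, hS, map_apply, halfMatrix, of_apply]
    set χ := (e j).1
    have hodd : χ (-1) = -1 := (e j).2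
    set F : (ZMod m)ˣ → ℂ := fun a =>
      χ a * (2 * (((a * c.1⁻¹ : (ZMod m)ˣ) : ZMod m).val : ℂ) - m) with hF
    have hev : ∀ a, F (-a) = F a := fun a => by
      simp only [hF]
      rw [neg_mul, val_neg_unit h1, Nat.cast_sub (ZMod.val_lt _).le, Units.val_neg,
        ← neg_one_mul (a : ZMod m), map_mul, hodd]
      ring
    have h := sum_units_even h1 hm hev
    have hval : ∑ a, F a = χ c.1 * (2 * ∑ b : ZMod m, χ b * (b.val : ℂ)) := by
      rw [← sum_char_units χ fun b => (b.val : ℂ), ← Equiv.sum_comp (Equiv.mulRight c.1) F]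
      simp only [hF, Equiv.coe_mulRight, Units.val_mul, map_mul]
      simp only [mul_sub, Finset.sum_sub_distrib, Finset.mul_sum]
      rw [← Finset.sum_mul, ← Finset.sum_mul, sum_units_char_eq_zero (hne1 j), zero_mul, zero_mul,
        sub_zero]
      exact Finset.sum_congr rfl fun b _ => by rw [Units.mul_inv_cancel_right]; ring
    rw [hval] at h
    simp only [hF] at h
    refine Eq.trans (Finset.sum_congr rfl fun x _ => ?_) ((mul_right_inj' two_ne_zero).mp
      ((mul_left_comm 2 _ _).trans h)).symm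
    push_cast
    ring
  have h := congrArg (fun M : Matrix (HalfUnit m) (HalfUnit m) ℂ => ‖M.det‖) hGX
  simp only [det_mul, norm_mul, det_diagonal, norm_prod] at h
  rw [mul_comm ‖X.det‖] at h
  have h4 := mul_right_cancel₀ (norm_ne_zero_iff.mpr hXne) h
  rw [show ((halfMatrix m).map (Int.cast : ℤ → ℂ)).det = (((halfMatrix m).det : ℤ) : ℂ) from
    ((Int.castRingHom ℂ).map_det _).symm, Complex.norm_intCast, ← Int.cast_abs] at h4
  rw [Nat.cast_natAbs, h4]
  exact e.prod_comp fun χ => ‖∑ a : ZMod m, χ.1 a * (a.val : ℂ)‖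

end FA.StickelbergerIndex
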