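import Mathlib.LinearAlgebra.FreeModule.Finite.CardQuotient
import Mathlib.LinearAlgebra.Matrix.ToLin
import Mathlib.Data.ZMod.QuotientRing
import Mathlib.Tactic.LinearCombination

/-!
# The Stickelberger ideal on functions and its lattice index

For odd `m > 1` and `G = (ℤ/m)ˣ` the multiplication by `m θ` is `x ↦ (c ↦ ∑ x(a) val(a/c))`. The odd
part of the ideal is the image of the kernel of `ℤ^H → ℤ/2 × ℤ/m` under the matrix
`2 val(h/c) - m`, divided by `2m`; `H` the half system `val < m/2`.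
-/

set_option autoImplicit false

noncomputable section

open Finset Matrix
open scoped Classical

namespace FA.StickelbergerIndex

variable (m : ℕ) [NeZero m]

/-- The half system. -/
abbrev HalfUnit : Type := {a : (ZMod m)ˣ // 2 * (a : ZMod m).val < m}

/-- `m θ` applied to `x`. -/
def stickMul (x : (ZMod m)ˣ → ℤ) (c : (ZMod m)ˣ) : ℤ :=
  ∑ a, x a * ((a * c⁻¹ : (ZMod m)ˣ) : ZMod m).val

/-- The Stickelberger ideal `R ∩ θ R` on functions. -/
def idealFun : AddSubgroup ((ZMod m)ˣ → ℤ) where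
  carrier := {f | ∃ x, ∀ c, (m : ℤ) * f c = stickMul m x c}
  add_mem' := by
    rintro f g ⟨x, hx⟩ ⟨y, hy⟩
    refine ⟨x + y, fun c => ?_⟩
    simp only [stickMul, Pi.add_apply, add_mul, Finset.sum_add_distrib, mul_add] at hx hy ⊢
    rw [hx c, hy c]
  zero_mem' := ⟨0, fun c => by simp [stickMul]⟩
  neg_mem' := by
    rintro f ⟨x, hx⟩
    refine ⟨-x, fun c => ?_⟩
    simp only [stickMul, Pi.neg_apply, neg_mul, Finset.sum_neg_distrib, mul_neg] at hx ⊢
    rw [hx c]

/-- The minus part. -/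
def oddFun : AddSubgroup ((ZMod m)ˣ → ℤ) where
  carrier := {f | ∀ c, f (-c) = -f c}
  add_mem' {f g} hf hg c := by simp only [Pi.add_apply, hf c, hg c]; ring
  zero_mem' c := by simp
  neg_mem' {f} hf c := by simp only [Pi.neg_apply, hf c]

/-- The matrix `2 val(h/c) - m`. -/
def halfMatrix : Matrix (HalfUnit m) (HalfUnit m) ℤ :=
  Matrix.of fun c h => 2 * (((h.1 * c.1⁻¹ : (ZMod m)ˣ) : ZMod m).val : ℤ) - m

/-- The two congruences. -/
def parityHom : (HalfUnit m → ℤ) →+ ZMod 2 × ZMod m where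
  toFun y := ((∑ h, y h : ℤ), ∑ h, (y h : ZMod m) * (h.1 : ZMod m))
  map_zero' := by simp
  map_add' y z := by simp [Finset.sum_add_distrib, add_mul]

variable {m}

theorem val_unit_ne_zero (h1 : 1 < m) (a : (ZMod m)ˣ) : (a : ZMod m).val ≠ 0 := fun e => by
  haveI : Fact (1 < m) := ⟨h1⟩
  exact a.ne_zero ((ZMod.val_eq_zero _).mp e)

theorem val_neg_unit (h1 : 1 < m) (a : (ZMod m)ˣ) :
    ((-a : (ZMod m)ˣ) : ZMod m).val = m - (a : ZMod m).val := by
  haveI : Fact (1 < m) := ⟨h1⟩
  rw [Units.val_neg, ZMod.neg_val, if_neg a.ne_zero]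

theorem neg_mem_half_iff (h1 : 1 < m) (hm : Odd m) (a : (ZMod m)ˣ) :
    2 * ((-a : (ZMod m)ˣ) : ZMod m).val < m ↔ ¬ 2 * (a : ZMod m).val < m := by
  have h2 := ZMod.val_lt (a : ZMod m)
  rw [val_neg_unit h1]
  obtain ⟨k, hk⟩ := hm
  omega

/-- A sum over the units by the half system. -/
theorem sum_units_half (h1 : 1 < m) (hm : Odd m) {M : Type*} [AddCommMonoid M]
    (F : (ZMod m)ˣ → M) : ∑ a, F a = ∑ h : HalfUnit m, (F h.1 + F (-h.1)) := by
  rw [Finset.sum_add_distrib, ← Finset.sum_filter_add_sum_filter_not univ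
    (fun a : (ZMod m)ˣ => 2 * (a : ZMod m).val < m),
    Finset.sum_subtype _ (p := fun a : (ZMod m)ˣ => 2 * (a : ZMod m).val < m) (fun a => by simp)]
  congr 1
  refine Finset.sum_bij' (fun a ha => ⟨-a, (neg_mem_half_iff h1 hm a).mpr (mem_filter.mp ha).2⟩)
    (fun h _ => -h.1) (fun _ _ => mem_univ _)
    (fun h _ => mem_filter.mpr ⟨mem_univ _, fun e => (neg_mem_half_iff h1 hm h.1).mp e h.2⟩)
    (fun a _ => neg_neg a) (fun h _ => Subtype.ext (neg_neg h.1)) fun a _ => by
      show F a = F (- -a)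
      rw [neg_neg]

theorem sum_val_reflect (h1 : 1 < m) (x : (ZMod m)ˣ → ℤ) (c : (ZMod m)ˣ) :
    stickMul m x (-c) = (m : ℤ) * (∑ a, x a) - stickMul m x c := by
  rw [stickMul, stickMul, Finset.mul_sum, ← Finset.sum_sub_distrib]
  refine Finset.sum_congr rfl fun a _ => ?_
  rw [inv_neg, mul_neg, val_neg_unit h1, Nat.cast_sub (ZMod.val_lt _).le]
  ring

/-- `x θ` is integral exactly when `∑ x(a) a ≡ 0 (mod m)`. -/
theorem dvd_stickMul_iff (x : (ZMod m)ˣ → ℤ) :
    (∀ c, (m : ℤ) ∣ stickMul m x c) ↔ ∑ a, (x a : ZMod m) * (a : ZMod m) = 0 := by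
  have key : ∀ c, ((stickMul m x c : ℤ) : ZMod m) =
      (∑ a, (x a : ZMod m) * (a : ZMod m)) * ((c⁻¹ : (ZMod m)ˣ) : ZMod m) := fun c => by
    rw [stickMul, Int.cast_sum, Finset.sum_mul]
    refine Finset.sum_congr rfl fun a _ => ?_
    rw [Int.cast_mul, Int.cast_natCast, ZMod.natCast_zmod_val, Units.val_mul, mul_assoc]
  refine ⟨fun h => ?_, fun h c => ?_⟩
  · have h0 := (ZMod.intCast_zmod_eq_zero_iff_dvd _ _).mpr (h 1)
    rw [key, inv_one, Units.val_one, mul_one] at h0
    exact h0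
  · rw [← ZMod.intCast_zmod_eq_zero_iff_dvd, key, h, zero_mul]

/-- `x θ` is odd exactly when the augmentation of `x` vanishes. -/
theorem odd_of_stickMul_iff (h1 : 1 < m) {f x : (ZMod m)ˣ → ℤ}
    (hx : ∀ c, (m : ℤ) * f c = stickMul m x c) : f ∈ oddFun m ↔ ∑ a, x a = 0 := by
  have hm0 : (m : ℤ) ≠ 0 := Int.natCast_ne_zero.mpr (NeZero.ne m)
  constructor
  · intro hf
    have h := sum_val_reflect h1 x 1
    rw [← hx, ← hx, show f (-1) = -f 1 from hf 1] at h
    have h2 : (m : ℤ) * ∑ a, x a = 0 := by linear_combination -h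
    exact (mul_eq_zero.mp h2).resolve_left hm0
  · intro h c
    refine mul_left_cancel₀ hm0 ?_
    rw [hx, sum_val_reflect h1, h, mul_neg, hx]
    ring

/-- Restriction to the half system. -/
def restrictHalf : oddFun m →+ (HalfUnit m → ℤ) where
  toFun f h := f.1 h.1
  map_zero' := rfl
  map_add' _ _ := rfl

theorem restrictHalf_bijective (h1 : 1 < m) (hm : Odd m) :
    Function.Bijective (restrictHalf (m := m)) := by
  constructor
  · intro f g e
    refine Subtype.ext (funext fun a => ?_)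
    by_cases ha : 2 * (a : ZMod m).val < m
    · exact congrFun e ⟨a, ha⟩
    · have h : f.1 (-a) = g.1 (-a) := congrFun e ⟨-a, (neg_mem_half_iff h1 hm a).mpr ha⟩
      rw [f.2 a, g.2 a, neg_inj] at h
      exact h
  · intro y
    set F : (ZMod m)ˣ → ℤ := fun a => if ha : 2 * (a : ZMod m).val < m then y ⟨a, ha⟩
      else -y ⟨-a, (neg_mem_half_iff h1 hm a).mpr ha⟩ with hF
    refine ⟨⟨F, fun a => ?_⟩, funext fun h => dif_pos h.2⟩
    by_cases ha : 2 * (a : ZMod m).val < m
    · have hn : ¬ 2 * ((-a : (ZMod m)ˣ) : ZMod m).val < m := fun e =>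
        (neg_mem_half_iff h1 hm a).mp e ha
      simp only [hF, dif_pos ha, dif_neg hn, neg_neg]
    · have hn := (neg_mem_half_iff h1 hm a).mpr ha
      simp only [hF, dif_neg ha, dif_pos hn, neg_neg]

/-- `1` in the half system. -/
def halfOne (h1 : 1 < m) (hm : Odd m) : HalfUnit m :=
  ⟨1, by
    haveI : Fact (1 < m) := ⟨h1⟩
    rw [Units.val_one, ZMod.val_one]
    obtain ⟨k, hk⟩ := hm
    omega⟩

theorem index_ker_parityHom (h1 : 1 < m) (hm : Odd m) : (parityHom m).ker.index = 2 * m := by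
  have hsurj : (parityHom m).range = ⊤ := by
    refine AddMonoidHom.range_eq_top.mpr fun z => ?_
    have hcop : Nat.Coprime 2 m := Nat.coprime_two_left.mpr hm
    obtain ⟨t, ht⟩ := (ZMod.chineseRemainder hcop).surjective z
    refine ⟨Pi.single (halfOne h1 hm) (t.val : ℤ), ?_⟩
    rw [← ht]
    show (((∑ h, (Pi.single (halfOne h1 hm) (t.val : ℤ) : HalfUnit m → ℤ) h : ℤ) : ZMod 2), _) = _
    rw [Finset.sum_pi_single', if_pos (mem_univ _),
      Finset.sum_eq_single (halfOne h1 hm) (fun b _ hb => by simp [Pi.single_eq_of_ne hb])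
        (fun h => absurd (mem_univ _) h), Pi.single_eq_same]
    conv_rhs => rw [← ZMod.natCast_zmod_val t, map_natCast (ZMod.chineseRemainder hcop)]
    simp [halfOne, Prod.ext_iff]
  rw [AddSubgroup.index_ker, hsurj, AddSubgroup.card_top, Nat.card_prod, Nat.card_zmod,
    Nat.card_zmod]

/-- The key relation. -/
theorem mulVec_halfMatrix (h1 : 1 < m) (hm : Odd m) {x : (ZMod m)ˣ → ℤ} (haug : ∑ a, x a = 0)
    (c : HalfUnit m) :
    (halfMatrix m).mulVec (fun h => x h.1 - x (-h.1)) c = 2 * stickMul m x c.1 := by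
  have e : 2 * stickMul m x c.1 =
      ∑ a, x a * (2 * (((a * c.1⁻¹ : (ZMod m)ˣ) : ZMod m).val : ℤ) - m) := by
    simp only [mul_sub, Finset.sum_sub_distrib, ← Finset.sum_mul, haug, zero_mul, sub_zero,
      stickMul, Finset.mul_sum]
    exact Finset.sum_congr rfl fun a _ => by ring
  rw [e, sum_units_half h1 hm, Matrix.mulVec, dotProduct]
  refine Finset.sum_congr rfl fun h _ => ?_
  rw [halfMatrix, Matrix.of_apply, neg_mul, val_neg_unit h1, Nat.cast_sub (ZMod.val_lt _).le]
  ring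

/-- The odd part of the ideal, on the half system and scaled by `2 m`. -/
theorem map_minus_eq (h1 : 1 < m) (hm : Odd m) :
    (((idealFun m).addSubgroupOf (oddFun m)).map restrictHalf).map
        ((2 * m : ℤ) • AddMonoidHom.id (HalfUnit m → ℤ)) =
      (parityHom m).ker.map (halfMatrix m).mulVecLin.toAddMonoidHom := by
  refine le_antisymm ?_ ?_
  · rintro _ ⟨_, ⟨f, ⟨x, hx⟩, rfl⟩, rfl⟩
    replace hx : ∀ c, (m : ℤ) * f.1 c = stickMul m x c := hx
    have haug : ∑ a, x a = 0 := (odd_of_stickMul_iff h1 hx).mp f.2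
    have hcong := (dvd_stickMul_iff x).mp fun c => ⟨_, (hx c).symm⟩
    refine ⟨fun h => x h.1 - x (-h.1), ?_, funext fun c => ?_⟩
    · have a1 := congrArg (fun z : ℤ => (z : ZMod 2)) haug
      have e2 : (2 : ZMod 2) = 0 := by decide
      simp only [sum_units_half h1 hm, Int.cast_sum, Int.cast_add, Int.cast_zero] at a1
      rw [sum_units_half h1 hm] at hcong
      refine AddMonoidHom.mem_ker.mpr (Prod.ext ?_ ?_)
      · show ((∑ h : HalfUnit m, (x h.1 - x (-h.1)) : ℤ) : ZMod 2) = 0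
        rw [Int.cast_sum, ← a1]
        refine Finset.sum_congr rfl fun h _ => ?_
        rw [Int.cast_sub]
        linear_combination -(x (-h.1) : ZMod 2) * e2
      · show ∑ h : HalfUnit m, ((x h.1 - x (-h.1) : ℤ) : ZMod m) * (h.1 : ZMod m) = 0
        refine Eq.trans (Finset.sum_congr rfl fun h _ => ?_) hcong
        rw [Units.val_neg, Int.cast_sub]
        ring
    · show (halfMatrix m).mulVec _ c = (2 * m : ℤ) * f.1 c.1
      rw [mulVec_halfMatrix h1 hm haug, ← hx]
      ring
  · rintro _ ⟨y, hy, rfl⟩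
    obtain ⟨hy2, hym⟩ := Prod.ext_iff.mp (AddMonoidHom.mem_ker.mp hy)
    obtain ⟨s, hs⟩ : (2 : ℤ) ∣ ∑ h, y h := (ZMod.intCast_zmod_eq_zero_iff_dvd _ 2).mp hy2
    set o := halfOne h1 hm with ho
    set x : (ZMod m)ˣ → ℤ := fun a => (if ha : 2 * (a : ZMod m).val < m then y ⟨a, ha⟩ else 0) -
      if a = 1 ∨ a = -1 then s else 0 with hx
    have hpos : ∀ h : HalfUnit m, x h.1 = y h - if h = o then s else 0 := fun h => by
      have hne : h.1 ≠ -1 := fun e => (neg_mem_half_iff h1 hm 1).mp (e ▸ h.2) o.2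
      have e' : h.1 = 1 ↔ h = o := ⟨fun e => Subtype.ext e, fun e => congrArg Subtype.val e⟩
      simp only [hx, dif_pos h.2, or_iff_left hne, e']
    have hneg : ∀ h : HalfUnit m, x (-h.1) = -if h = o then s else 0 := fun h => by
      have hn : ¬ 2 * ((-h.1 : (ZMod m)ˣ) : ZMod m).val < m := fun e =>
        (neg_mem_half_iff h1 hm h.1).mp e h.2
      have hne : -h.1 ≠ 1 := fun e => hn (e ▸ o.2)
      have e' : -h.1 = -1 ↔ h = o :=
        ⟨fun e => Subtype.ext (neg_inj.mp e), fun e => neg_inj.mpr (congrArg Subtype.val e)⟩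
      simp only [hx, dif_neg hn, or_iff_right hne, e', zero_sub]
    have haug : ∑ a, x a = 0 := by
      rw [sum_units_half h1 hm]
      simp only [hpos, hneg, Finset.sum_add_distrib, Finset.sum_sub_distrib,
        Finset.sum_neg_distrib, Finset.sum_ite_eq', mem_univ, if_true, hs]
      ring
    have hcong : ∑ a, (x a : ZMod m) * (a : ZMod m) = 0 := by
      rw [sum_units_half h1 hm]
      refine Eq.trans (Finset.sum_congr rfl fun h _ => ?_) hym
      rw [hpos, hneg, Units.val_neg]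
      push_cast
      ring
    have hd := (dvd_stickMul_iff x).mpr hcong
    choose f hf using hd
    have hodd : f ∈ oddFun m := (odd_of_stickMul_iff h1 fun c => (hf c).symm).mpr haug
    refine ⟨_, ⟨⟨f, hodd⟩, ⟨x, fun c => (hf c).symm⟩, rfl⟩, funext fun c => ?_⟩
    show (2 * m : ℤ) * f c.1 = (halfMatrix m).mulVec y c
    have hxy : (fun h : HalfUnit m => x h.1 - x (-h.1)) = y := funext fun h => by
      rw [hpos, hneg]; ring
    rw [← hxy, mulVec_halfMatrix h1 hm haug, hf]
    ring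

/-- **The lattice index**: `[R⁻ : I⁻] (2m)^r = 2 m |det|`. -/
theorem relIndex_mul_pow (h1 : 1 < m) (hm : Odd m) (hdet : (halfMatrix m).det ≠ 0) :
    (idealFun m).relIndex (oddFun m) * (2 * m) ^ Fintype.card (HalfUnit m) =
      2 * m * (halfMatrix m).det.natAbs := by
  have hinj : Function.Injective (halfMatrix m).mulVecLin := by
    refine LinearMap.ker_eq_bot.mp (LinearMap.ker_eq_bot'.mpr fun v hv => ?_)
    exact Matrix.eq_zero_of_mulVec_eq_zero hdet hv
  have h2inj : Function.Injective ((2 * m : ℤ) • AddMonoidHom.id (HalfUnit m → ℤ)) :=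
      fun a b e => by
    funext c
    have := congrFun e c
    simpa [NeZero.ne m] using this
  have hr1 : (halfMatrix m).mulVecLin.toAddMonoidHom.range.index = (halfMatrix m).det.natAbs := by
    have h := Submodule.natAbs_det_equiv _ (LinearEquiv.ofInjective _ hinj)
    rw [← LinearMap.det_toLin', Matrix.toLin'_apply']
    exact h.symm
  have hr2 : ((2 * m : ℤ) • AddMonoidHom.id (HalfUnit m → ℤ)).range.index =
      (2 * m) ^ Fintype.card (HalfUnit m) := by
    have h2inj' : Function.Injective ((2 * m : ℤ) • (LinearMap.id : (HalfUnit m → ℤ) →ₗ[ℤ] _)) :=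
      h2inj
    have h := Submodule.natAbs_det_equiv _ (LinearEquiv.ofInjective _ h2inj')
    refine h.symm.trans ?_
    rw [show ((LinearMap.range _).subtype ∘ₗ _) =
      (2 * m : ℤ) • (LinearMap.id : (HalfUnit m → ℤ) →ₗ[ℤ] _) from rfl,
      LinearMap.det_smul, LinearMap.det_id, mul_one, Module.finrank_pi, Int.natAbs_pow]
    simp [Int.natAbs_mul]
  have h := congrArg AddSubgroup.index (map_minus_eq h1 hm)
  rw [AddSubgroup.index_map_of_injective _ h2inj,
    AddSubgroup.index_map_of_injective (parityHom m).ker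
      (f := (halfMatrix m).mulVecLin.toAddMonoidHom) hinj,
    index_ker_parityHom h1 hm, AddSubgroup.index_map_of_bijective (restrictHalf_bijective h1 hm),
    hr1, hr2] at h
  exact h

end FA.StickelbergerIndex
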