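import Fermat.Agent.StickelbergerIndex.Determinant
import Fermat.Agent.AbelianFE.RelativeClassNumber
import Fermat.Agent.IwasawaMinus.UnitIndex

/-!
# Iwasawa's index theorem

At `m = p^(n+1)` the Bernoulli number of an odd character is that of its primitive character, so
the lattice index is `h / h⁺`. The ideal is also described inside the group ring.
-/

set_option autoImplicit false
set_option linter.style.haveILetI false

noncomputable section

open Finset DirichletCharacter NumberField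
open scoped Classical

namespace FA.StickelbergerIndex

/-- A periodic sum of a mean zero function, weighted by the index. -/
theorem sum_range_mul_periodic (f : ℕ) (φ : ℕ → ℂ) (hper : ∀ q r, φ (q * f + r) = φ r)
    (h0 : ∑ r ∈ range f, φ r = 0) (q : ℕ) :
    ∑ t ∈ range (q * f), φ t * t = q * ∑ r ∈ range f, φ r * r := by
  induction q with
  | zero => simp
  | succ q ih =>
    rw [Nat.succ_mul, Finset.sum_range_add, ih]
    have h : ∑ x ∈ range f, φ (q * f + x) * ((q * f + x : ℕ) : ℂ) =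
        ((q * f : ℕ) : ℂ) * (∑ x ∈ range f, φ x) + ∑ x ∈ range f, φ x * x := by
      rw [Finset.mul_sum, ← Finset.sum_add_distrib]
      refine Finset.sum_congr rfl fun x _ => ?_
      rw [hper]
      push_cast
      ring
    rw [h, h0]
    push_cast
    ring

/-- A sum over `ZMod N` as a sum over a range. -/
theorem sum_zmod_range {N : ℕ} [NeZero N] (F : ZMod N → ℂ) :
    ∑ a, F a = ∑ t ∈ range N, F (t : ZMod N) := by
  refine Finset.sum_bij (fun a _ => a.val) (fun a _ => mem_range.mpr (ZMod.val_lt a))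
    (fun a _ b _ e => ZMod.val_injective N e)
    (fun t ht => ⟨t, mem_univ _, ZMod.val_natCast_of_lt (mem_range.mp ht)⟩)
    fun a _ => by rw [ZMod.natCast_zmod_val]

/-- The weighted sum at a multiple level with the same primes. -/
theorem sum_char_changeLevel {f N : ℕ} [NeZero f] [NeZero N] (hd : f ∣ N)
    (hpr : ∀ t : ℕ, t.Coprime f → t.Coprime N) {ψ : DirichletCharacter ℂ f} (hψ : ψ ≠ 1) :
    ∑ a : ZMod N, changeLevel hd ψ a * (a.val : ℂ) =
      (N / f : ℕ) * ∑ r : ZMod f, ψ r * (r.val : ℂ) := by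
  have hch : ∀ t : ℕ, changeLevel hd ψ (t : ZMod N) = ψ (t : ZMod f) := fun t => by
    by_cases ht : t.Coprime f
    · rw [← ZMod.coe_unitOfCoprime t (hpr t ht), changeLevel_eq_cast_of_dvd _ hd,
        ZMod.coe_unitOfCoprime, ZMod.cast_natCast hd]
    · rw [MulChar.map_nonunit _ fun hu => ht ((ZMod.isUnit_iff_coprime t f).mp hu),
        MulChar.map_nonunit _ fun hu =>
          ht (((ZMod.isUnit_iff_coprime t N).mp hu).coprime_dvd_right hd)]
  have h0 : ∑ r ∈ range f, ψ (r : ZMod f) = 0 := by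
    rw [← sum_zmod_range fun a : ZMod f => ψ a]
    exact MulChar.sum_eq_zero_of_ne_one hψ
  rw [sum_zmod_range, sum_zmod_range (fun r : ZMod f => ψ r * (r.val : ℂ))]
  obtain ⟨q, hq⟩ : ∃ q, N = q * f := ⟨N / f, (Nat.div_mul_cancel hd).symm⟩
  have hdiv : N / f = q := by rw [hq]; exact Nat.mul_div_cancel q (NeZero.pos f)
  rw [hdiv]
  calc ∑ t ∈ range N, changeLevel hd ψ (t : ZMod N) * ((t : ZMod N).val : ℂ)
      = ∑ t ∈ range (q * f), ψ (t : ZMod f) * (t : ℂ) := by
        rw [← hq]
        exact Finset.sum_congr rfl fun t ht => by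
          rw [hch, ZMod.val_natCast_of_lt (mem_range.mp ht)]
    _ = q * ∑ r ∈ range f, ψ (r : ZMod f) * (r : ℂ) :=
        sum_range_mul_periodic f (fun t => ψ (t : ZMod f))
          (fun a b => by simp) h0 q
    _ = _ := by
        congr 1
        exact Finset.sum_congr rfl fun t ht => by rw [ZMod.val_natCast_of_lt (mem_range.mp ht)]

/-- At a prime power level the Bernoulli number is that of the primitive character. -/
theorem bernoulliOne_primitive {p n : ℕ} [hp : Fact p.Prime] [NeZero (p ^ (n + 1))]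
    {χ : DirichletCharacter ℂ (p ^ (n + 1))} (hχ : χ.Odd) :
    FA.AbelianFE.bernoulliOne' χ.conductor χ.primitiveCharacter =
      (∑ a : ZMod (p ^ (n + 1)), χ a * (a.val : ℂ)) / ((p ^ (n + 1) : ℕ) : ℂ) := by
  haveI : NeZero χ.conductor := ⟨χ.conductor_ne_zero⟩
  have hne : χ.primitiveCharacter ≠ 1 := fun h => by
    have h2 : χ (-1) = -1 := hχ
    rw [← χ.changeLevel_primitiveCharacter, h, changeLevel_one,
      MulChar.one_apply isUnit_one.neg] at h2
    norm_num at h2
  obtain ⟨j, hj, hc⟩ := (Nat.dvd_prime_pow hp.out).mp χ.conductor_dvd_level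
  have hj0 : j ≠ 0 := fun e => by
    have h2 : χ (-1) = -1 := hχ
    rw [χ.eq_one_iff_conductor_eq_one.mpr (by rw [hc, e, pow_zero]),
      MulChar.one_apply isUnit_one.neg] at h2
    norm_num at h2
  have hpr : ∀ t : ℕ, t.Coprime χ.conductor → t.Coprime (p ^ (n + 1)) := fun t ht => by
    rw [hc, Nat.coprime_pow_right_iff (Nat.pos_of_ne_zero hj0)] at ht
    exact ht.pow_right _
  have h := sum_char_changeLevel χ.conductor_dvd_level hpr hne
  rw [changeLevel_primitiveCharacter] at h
  rw [FA.AbelianFE.bernoulliOne'_eq, FA.AbelianFE.bernoulliOne, h,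
    Nat.cast_div χ.conductor_dvd_level (Nat.cast_ne_zero.mpr (NeZero.ne _))]
  have h1 : (χ.conductor : ℂ) ≠ 0 := Nat.cast_ne_zero.mpr (NeZero.ne _)
  have h2 : ((p ^ (n + 1) : ℕ) : ℂ) ≠ 0 := Nat.cast_ne_zero.mpr (NeZero.ne _)
  field_simp

section Main

variable {p : ℕ} [hp : Fact p.Prime] [NeZero p] (n : ℕ) (K : Type*) [Field K] [NumberField K]
  [IsCyclotomicExtension {p ^ (n + 1)} ℚ K]

set_option backward.isDefEq.respectTransparency false in
/-- **Iwasawa's index theorem**, on functions. -/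
theorem relIndex_mul_classNumber (hp2 : p ≠ 2) :
    (idealFun (p ^ (n + 1))).relIndex (oddFun (p ^ (n + 1))) *
      classNumber (maximalRealSubfield K) = classNumber K := by
  have hp3 : 3 ≤ p := by have := hp.out.two_le; omega
  have hm2 : 2 < p ^ (n + 1) :=
    lt_of_lt_of_le (by omega) (Nat.le_self_pow (Nat.succ_ne_zero n) p)
  have hodd : Odd (p ^ (n + 1)) := (hp.out.odd_of_ne_two hp2).pow
  haveI : IsCMField K :=
    IsCyclotomicExtension.Rat.isCMField K (S := {p ^ (n + 1)}) ⟨p ^ (n + 1), rfl, hm2⟩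
  haveI : IsAbelianGalois ℚ K := IsCyclotomicExtension.isAbelianGalois {p ^ (n + 1)} ℚ K
  set m := p ^ (n + 1) with hm
  have h := FA.AbelianFE.relativeClassNumber_eq m K K (AlgHom.id ℚ K)
  rw [FA.IwasawaMinus.indexRealUnits_primePower hp2 n K, Nat.cast_one, mul_one,
    IsCyclotomicExtension.Rat.torsionOrder_eq (n := m) (K := K),
    if_neg (Nat.not_even_iff_odd.mpr hodd)] at h
  have hfil : (Finset.univ.filter fun χ : DirichletCharacter ℂ m =>
      χ ∈ FA.AbelianZeta.fieldChars m K (AlgHom.id ℚ K).fieldRange ∧ χ.Odd) =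
      Finset.univ.filter fun χ : DirichletCharacter ℂ m => χ.Odd :=
    Finset.filter_congr fun χ _ => and_iff_right ((FA.AbelianZeta.mem_fieldChars_iff _ _ _).mpr
      fun σ hσ => by
        have h1 : σ = 1 := AlgEquiv.ext fun x =>
          (IntermediateField.mem_fixingSubgroup_iff _ _).mp hσ x ⟨x, rfl⟩
        rw [h1, map_one, Units.val_one, map_one])
  rw [hfil, Finset.prod_subtype (p := fun χ : DirichletCharacter ℂ m => χ.Odd)
    (F := (inferInstance : Fintype {χ : DirichletCharacter ℂ m // χ.Odd})) _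
    (fun χ => by simp)] at h
  have hn := congrArg (fun z : ℂ => ‖z‖) h
  simp only [norm_mul, norm_prod, Complex.norm_natCast] at hn
  have hterm : ∀ χ : {χ : DirichletCharacter ℂ m // χ.Odd},
      ‖-(FA.AbelianFE.bernoulliOne' χ.1.conductor χ.1.primitiveCharacter) / 2‖ =
        ‖∑ a : ZMod m, χ.1 a * (a.val : ℂ)‖ / ((2 * m : ℕ) : ℝ) := fun χ => by
    rw [bernoulliOne_primitive χ.2, norm_div, norm_neg, norm_div, Complex.norm_natCast,
      Complex.norm_ofNat, div_div]
    push_cast
    rw [show (p : ℝ) ^ (n + 1) = (m : ℝ) by rw [hm]; push_cast; ring]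
    ring
  simp only [hterm, Finset.prod_div_distrib, Finset.prod_const, Finset.card_univ,
    card_odd_eq_half (by omega : 1 < m) hodd,
    ← abs_det_halfMatrix (by omega : 1 < m) hodd] at hn
  have hdet : (halfMatrix m).det ≠ 0 := fun h0 => by
    rw [h0] at hn
    simp [(classNumber_pos K).ne'] at hn
  have hL := relIndex_mul_pow (by omega : 1 < m) hodd hdet
  have hpow : ((2 * m : ℕ) : ℝ) ^ Fintype.card (HalfUnit m) ≠ 0 :=
    pow_ne_zero _ (Nat.cast_ne_zero.mpr (by omega))
  have key : (((idealFun m).relIndex (oddFun m) * classNumber (maximalRealSubfield K) : ℕ) : ℝ) =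
      (classNumber K : ℝ) := by
    refine mul_right_cancel₀ hpow ?_
    have hL' := congrArg (fun z : ℕ => (z : ℝ)) hL
    simp only [Nat.cast_mul, Nat.cast_pow] at hL'
    field_simp at hn
    push_cast at hn ⊢
    linear_combination (classNumber (maximalRealSubfield K) : ℝ) * hL' - hn
  exact_mod_cast key

end Main

section GroupRing

variable (m : ℕ) [NeZero m]

/-- `θ = ∑ {a/m} σ_a⁻¹`. -/
def theta : MonoidAlgebra ℚ (ZMod m)ˣ :=
  ∑ a : (ZMod m)ˣ, MonoidAlgebra.single a⁻¹ (((a : ZMod m).val : ℚ) / m)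

/-- `R ∩ θ R`. -/
def stickIdeal : AddSubgroup (MonoidAlgebra ℤ (ZMod m)ˣ) where
  carrier := {y | ∃ x : MonoidAlgebra ℤ (ZMod m)ˣ,
    MonoidAlgebra.mapRingHom _ (Int.castRingHom ℚ) y =
      MonoidAlgebra.mapRingHom _ (Int.castRingHom ℚ) x * theta m}
  add_mem' := by
    rintro a b ⟨x, hx⟩ ⟨y, hy⟩
    exact ⟨x + y, by rw [map_add, map_add, hx, hy, add_mul]⟩
  zero_mem' := ⟨0, by simp⟩
  neg_mem' := by
    rintro a ⟨x, hx⟩
    exact ⟨-x, by rw [map_neg, map_neg, hx, neg_mul]⟩

/-- `{y : σ_{-1} y = -y}`. -/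
def minusPart : AddSubgroup (MonoidAlgebra ℤ (ZMod m)ˣ) where
  carrier := {y | MonoidAlgebra.single (-1 : (ZMod m)ˣ) 1 * y = -y}
  add_mem' := by
    intro a b ha hb
    simp only [Set.mem_setOf_eq, mul_add, neg_add] at ha hb ⊢
    rw [ha, hb]
  zero_mem' := by simp
  neg_mem' := by
    intro a ha
    simp only [Set.mem_setOf_eq, mul_neg] at ha ⊢
    rw [ha]

/-- The coefficients. -/
def coeffFun : MonoidAlgebra ℤ (ZMod m)ˣ ≃+ ((ZMod m)ˣ → ℤ) :=
  MonoidAlgebra.coeffAddEquiv.trans Finsupp.addEquivFunOnFinite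

variable {m}

theorem coeffFun_apply (y : MonoidAlgebra ℤ (ZMod m)ˣ) (c : (ZMod m)ˣ) :
    coeffFun m y c = y.coeff c := rfl

theorem mul_theta_coeff (x : MonoidAlgebra ℤ (ZMod m)ˣ) (c : (ZMod m)ˣ) :
    (MonoidAlgebra.mapRingHom _ (Int.castRingHom ℚ) x * theta m).coeff c =
      (stickMul m (coeffFun m x) c : ℚ) / m := by
  rw [theta, Finset.mul_sum, MonoidAlgebra.coeff_sum, Finsupp.finsetSum_apply, stickMul,
    Int.cast_sum, Finset.sum_div, ← Equiv.sum_comp (Equiv.mulRight c⁻¹)]
  refine Finset.sum_congr rfl fun a _ => ?_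
  rw [MonoidAlgebra.coeff_mul_single_eq_coeff_mul a, MonoidAlgebra.coeff_mapRingHom,
    Equiv.coe_mulRight, coeffFun_apply]
  · push_cast
    simp only [eq_intCast]
    ring
  · intro b _
    simp only [Equiv.coe_mulRight, mul_inv_rev, inv_inv]
    constructor
    · intro e
      rw [← mul_assoc, mul_comm b c, mul_assoc, mul_eq_left] at e
      exact mul_inv_eq_one.mp e
    · rintro rfl
      rw [← mul_assoc, mul_comm b c, mul_assoc, mul_inv_cancel, mul_one]

theorem mem_stickIdeal_iff (y : MonoidAlgebra ℤ (ZMod m)ˣ) :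
    y ∈ stickIdeal m ↔ coeffFun m y ∈ idealFun m := by
  have hm0 : (m : ℚ) ≠ 0 := Nat.cast_ne_zero.mpr (NeZero.ne m)
  have key : ∀ x : MonoidAlgebra ℤ (ZMod m)ˣ,
      MonoidAlgebra.mapRingHom _ (Int.castRingHom ℚ) y =
        MonoidAlgebra.mapRingHom _ (Int.castRingHom ℚ) x * theta m ↔
      ∀ c, (m : ℤ) * coeffFun m y c = stickMul m (coeffFun m x) c := fun x => by
    rw [← MonoidAlgebra.coeff_inj, DFunLike.ext_iff]
    refine forall_congr' fun c => ?_
    rw [mul_theta_coeff, MonoidAlgebra.coeff_mapRingHom, eq_intCast, eq_div_iff hm0,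
      coeffFun_apply, mul_comm]
    exact_mod_cast Iff.rfl
  refine ⟨fun ⟨x, hx⟩ => ⟨coeffFun m x, (key x).mp hx⟩, fun ⟨x, hx⟩ =>
    ⟨(coeffFun m).symm x, (key _).mpr ?_⟩⟩
  rw [AddEquiv.apply_symm_apply]
  exact hx

theorem mem_minusPart_iff (y : MonoidAlgebra ℤ (ZMod m)ˣ) :
    y ∈ minusPart m ↔ coeffFun m y ∈ oddFun m := by
  show MonoidAlgebra.single (-1 : (ZMod m)ˣ) 1 * y = -y ↔ ∀ c, _
  rw [← MonoidAlgebra.coeff_inj, DFunLike.ext_iff]
  refine forall_congr' fun c => ?_
  rw [MonoidAlgebra.coeff_single_mul_eq_mul_coeff (-c) (fun b _ => by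
    rw [neg_one_mul, neg_eq_iff_eq_neg]), one_mul, MonoidAlgebra.coeff_neg, Finsupp.neg_apply]
  rfl

/-- The index in the group ring is the index on functions. -/
theorem relIndex_groupRing :
    (stickIdeal m).relIndex (minusPart m) = (idealFun m).relIndex (oddFun m) := by
  have e1 : (stickIdeal m).map (coeffFun m).toAddMonoidHom = idealFun m :=
    AddSubgroup.ext fun f => by
      rw [AddSubgroup.mem_map_equiv, mem_stickIdeal_iff, AddEquiv.apply_symm_apply]
  have e2 : (minusPart m).map (coeffFun m).toAddMonoidHom = oddFun m :=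
    AddSubgroup.ext fun f => by
      rw [AddSubgroup.mem_map_equiv, mem_minusPart_iff, AddEquiv.apply_symm_apply]
  rw [← e1, ← e2]
  exact (AddSubgroup.relIndex_map_map_of_injective _ _ (coeffFun m).injective).symm

end GroupRing

end FA.StickelbergerIndex
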